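import Fermat.Agent.ZNewV.Trace
import Fermat.Agent.TorsCmp.Surj

/-!
# `U_q = - w_q` on the `q`-new part of the Tate module of `J₀(Nq)`
-/

set_option autoImplicit false
set_option linter.unusedSectionVars false
set_option linter.style.haveILetI false
set_option maxHeartbeats 1000000

noncomputable section

open UpperHalfPlane Function ModularCurve Filter ModularForm AlgebraicCurve WithZero
  CongruenceSubgroup
open scoped Manifold MatrixGroups Topology ModularForm

namespace Fermat.Agent.ZNewV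

open Fermat.Agent.X0Places Fermat.Agent.FunField Fermat.Agent.FunField.PlaceLemmas
open Fermat.Agent.TorsCmp Fermat.Agent.HeckeRed Fermat.Agent.ZAL Fermat.Agent.Tate
open Matrix.SpecialLinearGroup (mapGL)
open Fermat.Agent.HeckeHom (HData dataU)
open ModularCurve.Period (parabolicHoms)

local notation "Qbar" => AlgebraicClosure ℚ

section General

variable (M : ℕ) [NeZero M] (p : ℕ) [hp : Fact p.Prime]

/-- the `n`-th component of an element of the Tate module, in `J₀(M)` -/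
def comp (n : ℕ) (φ : parabolicHoms ℤ_[p] (Gamma0 M) ℤ_[p]) : JZero M :=
  (pr (comparisonJ M p) _ (comparisonJ_mem_iff M p) n φ : JZero M)

theorem comp_def (n : ℕ) (φ : parabolicHoms ℤ_[p] (Gamma0 M) ℤ_[p]) :
    comp M p n φ = (pr (comparisonJ M p) _ (comparisonJ_mem_iff M p) n φ : JZero M) := rfl

theorem isCmp_comp (n : ℕ) (φ : parabolicHoms ℤ_[p] (Gamma0 M) ℤ_[p]) :
    IsCmp iotaQbar M (p ^ n) (comp M p n φ) (red n (φ : Additive (Gamma0 M) →+ ℤ_[p])) := by
  have : NeZero (p ^ n) := ⟨pow_ne_zero n hp.out.ne_zero⟩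
  have h1 := isCmp_cmpMap (ι := iotaQbar) (p ^ n) (pr (comparisonJ M p) _
    (comparisonJ_mem_iff M p) n φ)
  have h2 : cmpMap iotaQbar M (p ^ n) (pr (comparisonJ M p) _
      (comparisonJ_mem_iff M p) n φ) = red n (φ : Additive (Gamma0 M) →+ ℤ_[p]) :=
    e_pr (comparisonJ M p) _ (comparisonJ_mem_iff M p) n φ
  rw [h2] at h1
  exact h1

theorem red_hom {Γ Γ' : Subgroup SL(2, ℤ)} (D : HData Γ Γ') (n : ℕ)
    (φ : Additive Γ →+ ℤ_[p]) :
    red n (D.hom ℤ_[p] φ) = D.hom (ZMod (p ^ n)) (red n φ) := by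
  rw [red, red, HData.hom_comp]

/-- The Tate module and `w_d`. -/
theorem eq_wData {d : ℕ} (h : ExDiv d M) (φ ψ : parabolicHoms ℤ_[p] (Gamma0 M) ℤ_[p])
    (hψ : ∀ n, comp M p n ψ = wS iotaQbar h • comp M p n φ) :
    (ψ : Additive (Gamma0 M) →+ ℤ_[p]) = (wData h).hom ℤ_[p] φ := by
  refine ext_red fun n => ?_
  have : NeZero (p ^ n) := ⟨pow_ne_zero n hp.out.ne_zero⟩
  rw [red_hom]
  have h1 := isCmp_comp M p n ψ
  rw [hψ n] at h1
  exact h1.unique (isCmp_w h (isCmp_comp M p n φ))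

end General

section Push

variable (N q : ℕ) [NeZero N] [NeZero q] (p : ℕ) [hp : Fact p.Prime]

theorem alphaPush_eq_zero (φ : parabolicHoms ℤ_[p] (Gamma0 (N * q)) ℤ_[p])
    (hφ : ∀ n, Degen.pushPic (heckeAlphaBar Qbar N q) (comp (N * q) p n φ) = 0) :
    (alphaPush N q).hom ℤ_[p] φ = 0 := by
  refine ext_red fun n => ?_
  have : NeZero (p ^ n) := ⟨pow_ne_zero n hp.out.ne_zero⟩
  rw [red_hom, red_zero]
  have h1 := isCmp_alphaPush N q (isCmp_comp (N * q) p n φ)
  rw [hφ n] at h1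
  exact h1.unique isCmp_zero

variable {N q}

/-- **`U_q = - w_q` on the kernel of `α_* w_q`**. -/
theorem dataU_hom_eq_neg (hq : q.Prime) (hqN : ¬ q ∣ N) (h : ExDiv q (N * q))
    (φ ψ : parabolicHoms ℤ_[p] (Gamma0 (N * q)) ℤ_[p])
    (hψ : ∀ n, comp (N * q) p n ψ = wS iotaQbar h • comp (N * q) p n φ)
    (hφ : ∀ n, Degen.pushPic (heckeAlphaBar Qbar N q)
      (wS iotaQbar h • comp (N * q) p n φ) = 0) :
    (dataU q (Nat.dvd_mul_left q N)).hom ℤ_[p] φ =
      - (ψ : Additive (Gamma0 (N * q)) →+ ℤ_[p]) := by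
  have h1 : (alphaPush N q).hom ℤ_[p] ψ = 0 := by
    apply alphaPush_eq_zero
    intro n
    rw [hψ n]
    exact hφ n
  rw [eq_wData _ p h φ ψ hψ] at h1 ⊢
  exact dataU_of_push_eq_zero h hq hqN _ h1

/-- `U_q = - w_q` on the `q`-new part, with `w_q φ` given by its components. -/
theorem dataU_hom_eq_neg_of_new (hq : q.Prime) (hqN : ¬ q ∣ N) (h : ExDiv q (N * q))
    (φ ψ : parabolicHoms ℤ_[p] (Gamma0 (N * q)) ℤ_[p])
    (hψ : ∀ n, (pr (comparisonJ (N * q) p) _ (comparisonJ_mem_iff (N * q) p) n ψ :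
      JZero (N * q)) = wS iotaQbar h •
        (pr (comparisonJ (N * q) p) _ (comparisonJ_mem_iff (N * q) p) n φ : JZero (N * q)))
    (_hφ : ∀ n, Degen.pushPic (heckeAlphaBar Qbar N q)
      (pr (comparisonJ (N * q) p) _ (comparisonJ_mem_iff (N * q) p) n φ : JZero (N * q)) = 0)
    (hφ' : ∀ n, Degen.pushPic (heckeAlphaBar Qbar N q)
      (wS iotaQbar h •
        (pr (comparisonJ (N * q) p) _ (comparisonJ_mem_iff (N * q) p) n φ :
          JZero (N * q))) = 0) :
    (dataU q (Nat.dvd_mul_left q N)).hom ℤ_[p] φ =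
      - (ψ : Additive (Gamma0 (N * q)) →+ ℤ_[p]) :=
  dataU_hom_eq_neg p hq hqN h φ ψ hψ hφ'

end Push

end Fermat.Agent.ZNewV
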