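import Fermat.Agent.ZNewV.WData

/-!
# `α^* α_* = 1 + U_q w_q`
-/

set_option autoImplicit false
set_option linter.unusedSectionVars false
set_option linter.style.haveILetI false
set_option maxHeartbeats 1000000

noncomputable section

open UpperHalfPlane Function ModularCurve Filter ModularForm AlgebraicCurve WithZero
  CongruenceSubgroup
open scoped Manifold MatrixGroups Topology ModularForm

namespace Fermat.Agent.ZNewV

open Fermat.Agent.X0Places Fermat.Agent.FunField Fermat.Agent.FunField.PlaceLemmas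
open Fermat.Agent.TorsCmp Fermat.Agent.HeckeRed Fermat.Agent.ZAL
open Matrix.SpecialLinearGroup (mapGL)
open Fermat.Agent.HeckeHom (HData dataU uRep uRep_val uRep_uniq exists_uRep)

/-- restriction of a Hecke datum to a smaller group -/
def restr {Γ Γ' Γ'' : Subgroup SL(2, ℤ)} (D : HData Γ Γ') (hle : Γ'' ≤ Γ') : HData Γ Γ'' where
  X := D.X
  α := D.α
  ex γ x := D.ex ⟨γ, hle γ.2⟩ x
  uniq := D.uniq

theorem restr_hom {Γ Γ' Γ'' : Subgroup SL(2, ℤ)} (D : HData Γ Γ') (hle : Γ'' ≤ Γ')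
    {A : Type*} [AddCommGroup A] (φ : Additive Γ →+ A) (γ : Γ'') :
    (restr D hle).hom A φ (Additive.ofMul γ) = D.hom A φ (Additive.ofMul ⟨γ, hle γ.2⟩) := by
  rw [HData.hom_apply, HData.hom_apply]
  rfl

section Trace

variable (N q : ℕ) [NeZero N] [NeZero q]

theorem alphaPull_hom_apply {A : Type*} [AddCommGroup A] (φ : Additive (Gamma0 N) →+ A)
    (γ : Gamma0 (N * q)) :
    (alphaPull N q).hom A φ (Additive.ofMul γ) =
      φ (Additive.ofMul ⟨γ, Gamma0_mul_le N q γ.2⟩) := by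
  rw [HData.hom_apply]
  refine (Fintype.sum_unique _).trans ?_
  have h1 : (alphaPull N q).α default *
      mapGL ℝ (γ : SL(2, ℤ)) =
      mapGL ℝ ((⟨γ, Gamma0_mul_le N q γ.2⟩ : Gamma0 N) : SL(2, ℤ)) *
        (alphaPull N q).α default := by
    show (1 : GL (Fin 2) ℝ) * _ = _ * (1 : GL (Fin 2) ℝ)
    rw [one_mul, mul_one]
  rw [← ((alphaPull N q).eq_of_spec h1).2]

theorem alphaPull_alphaPush {A : Type*} [AddCommGroup A]
    (φ : Additive (Gamma0 (N * q)) →+ A) :
    (alphaPull N q).hom A ((alphaPush N q).hom A φ) =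
      (restr (alphaPush N q) (Gamma0_mul_le N q)).hom A φ := by
  refine AddMonoidHom.ext fun γ' => ?_
  obtain ⟨γ, rfl⟩ := Additive.ofMul.surjective γ'
  rw [alphaPull_hom_apply, restr_hom]

variable {N q}
variable (h : ExDiv q (N * q))

include h in
/-- the representatives of the other cosets -/
theorem exists_delta (j : ZMod q) : ∃ δ : SL(2, ℤ),
    h.gl * uRep q j = sc q (NeZero.ne q) * mapGL ℝ δ ∧ δ 1 0 = N := by
  have hq0 : q ≠ 0 := NeZero.ne q
  have hdiv : N * q / q = N := Nat.mul_div_cancel _ (Nat.pos_of_ne_zero hq0)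
  obtain ⟨b, e, hbez, hmat⟩ : ∃ b e : ℤ, (q : ℤ) * e - ((N * q / q : ℕ) : ℤ) * b = 1 ∧
      h.mat = !![(q : ℤ), b; ((N * q : ℕ) : ℤ), q * e] :=
    ⟨_, _, h.exists_bez.choose_spec.choose_spec, rfl⟩
  rw [hdiv] at hbez
  have hdet2 : (!![(1 : ℤ), (j.val : ℤ) + b; N, N * (j.val : ℤ) + q * e] :
      Matrix (Fin 2) (Fin 2) ℤ).det = 1 := by
    rw [Matrix.det_fin_two_of]
    linear_combination hbez
  obtain ⟨δ, hδ⟩ := mkSL_of_det _ hdet2
  refine ⟨δ, ?_, congrArg (fun A : Matrix (Fin 2) (Fin 2) ℤ => A 1 0) hδ⟩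
  have h00 : δ 0 0 = 1 := congrArg (fun A : Matrix (Fin 2) (Fin 2) ℤ => A 0 0) hδ
  have h01 : δ 0 1 = (j.val : ℤ) + b := congrArg (fun A : Matrix (Fin 2) (Fin 2) ℤ => A 0 1) hδ
  have h10 : δ 1 0 = N := congrArg (fun A : Matrix (Fin 2) (Fin 2) ℤ => A 1 0) hδ
  have h11 : δ 1 1 = N * (j.val : ℤ) + q * e :=
    congrArg (fun A : Matrix (Fin 2) (Fin 2) ℤ => A 1 1) hδ
  have hg : ∀ i k, (h.gl : Matrix (Fin 2) (Fin 2) ℝ) i k =
      ((!![(q : ℤ), b; ((N * q : ℕ) : ℤ), q * e] : Matrix (Fin 2) (Fin 2) ℤ) i k : ℝ) := by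
    intro i k
    rw [← hmat]
    rfl
  apply Units.ext
  rw [Units.val_mul, Units.val_mul, uRep_val, sc_val]
  ext i k
  fin_cases i <;> fin_cases k <;>
    simp [-ZMod.natCast_val, Matrix.mul_apply, Fin.sum_univ_two, hg, h00, h01, h10, h11] <;> ring

/-- the representatives of the other cosets -/
def delta (j : ZMod q) : SL(2, ℤ) := (exists_delta h j).choose

theorem gl_mul_uRep (j : ZMod q) :
    h.gl * uRep q j = sc q (NeZero.ne q) * mapGL ℝ (delta h j) := (exists_delta h j).choose_spec.1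

theorem delta_10 (j : ZMod q) : delta h j 1 0 = N := (exists_delta h j).choose_spec.2

/-- explicit version of the coset decomposition -/
def optData (hqN : ¬ q ∣ N) : HData (Gamma0 (N * q)) (Gamma0 (N * q)) where
  X := Option (ZMod q)
  fin := by
    haveI : Fintype (ZMod q) := ZMod.fintype q
    exact inferInstanceAs (Fintype (Option (ZMod q)))
  α x := x.elim 1 (fun j => mapGL ℝ (delta h j))
  ex γ x := by
    rcases x with _ | j
    · exact ⟨none, γ, by simp only [Option.elim_none]; rw [one_mul, mul_one]⟩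
    · obtain ⟨j', δ, hδ⟩ := exists_uRep q (Nat.dvd_mul_left q N) γ j
      obtain ⟨δ', hδ'⟩ := exists_w h δ
      refine ⟨some j', δ', ?_⟩
      simp only [Option.elim_some]
      have h1 : sc q (NeZero.ne q) * (mapGL ℝ (delta h j) * mapGL ℝ (γ : SL(2, ℤ))) =
          sc q (NeZero.ne q) * (mapGL ℝ (δ' : SL(2, ℤ)) * mapGL ℝ (delta h j')) := by
        rw [← mul_assoc, ← gl_mul_uRep, mul_assoc, hδ, ← mul_assoc, hδ', mul_assoc, gl_mul_uRep,
          ← mul_assoc, ← mul_assoc, sc_comm]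
      exact mul_left_cancel h1
  uniq δ x y hxy := by
    have hN0 : (N : ℤ) ≠ 0 := by exact_mod_cast NeZero.ne N
    have hnd : ¬ (((N * q : ℕ) : ℤ) ∣ (N : ℤ)) := by
      rintro ⟨c, hc⟩
      push_cast at hc
      have h1 : (1 : ℤ) = q * c := by
        apply mul_left_cancel₀ hN0
        linear_combination hc
      have h2 : (q : ℤ) ∣ 1 := ⟨c, h1⟩
      have h3 : q ∣ 1 := by exact_mod_cast h2
      exact hqN (h3.trans (one_dvd _))
    rcases x with _ | i <;> rcases y with _ | j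
    · rfl
    · exfalso
      simp only [Option.elim_none, Option.elim_some] at hxy
      have h1 : delta h j = ((δ⁻¹ : Gamma0 (N * q)) : SL(2, ℤ)) := by
        apply HeckeHom.mapGL_inj
        rw [Subgroup.coe_inv, map_inv, eq_inv_iff_mul_eq_one]
        have h2 : mapGL ℝ (delta h j) * mapGL ℝ (δ : SL(2, ℤ)) =
            (mapGL ℝ (δ : SL(2, ℤ)))⁻¹ * (mapGL ℝ (δ : SL(2, ℤ)) * mapGL ℝ (delta h j)) *
              mapGL ℝ (δ : SL(2, ℤ)) := by group
        rw [h2, ← hxy, mul_one, inv_mul_cancel]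
      have h2 := (δ⁻¹ : Gamma0 (N * q)).2
      rw [← h1, mem_Gamma0_iff, delta_10] at h2
      exact hnd h2
    · exfalso
      simp only [Option.elim_none, Option.elim_some, mul_one] at hxy
      have h1 : delta h i = (δ : SL(2, ℤ)) := HeckeHom.mapGL_inj hxy
      have h2 := δ.2
      rw [← h1, mem_Gamma0_iff, delta_10] at h2
      exact hnd h2
    · simp only [Option.elim_some] at hxy
      have h1 : h.gl * uRep q i = mapGL ℝ (δ : SL(2, ℤ)) * h.gl * uRep q j := by
        rw [gl_mul_uRep, hxy, ← mul_assoc, sc_comm, mul_assoc, mul_assoc, ← gl_mul_uRep]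
      obtain ⟨γ, hγ⟩ := exists_w' h δ
      rw [hγ, mul_assoc] at h1
      exact congrArg some (uRep_uniq q γ i j (mul_left_cancel h1))

theorem optData_hom (hqN : ¬ q ∣ N) {A : Type*} [AddCommGroup A]
    (φ : Additive (Gamma0 (N * q)) →+ A) :
    (optData h hqN).hom A φ =
      φ + (dataU q (Nat.dvd_mul_left q N)).hom A ((wData h).hom A φ) := by
  refine AddMonoidHom.ext fun γ' => ?_
  obtain ⟨γ, rfl⟩ := Additive.ofMul.surjective γ'
  rw [HData.hom_apply, AddMonoidHom.add_apply, HData.hom_apply]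
  have e1 : φ (Additive.ofMul ((optData h hqN).coc γ (none : Option (ZMod q)))) =
      φ (Additive.ofMul γ) := by
    have h1 : (optData h hqN).α (none : Option (ZMod q)) * mapGL ℝ (γ : SL(2, ℤ)) =
        mapGL ℝ (γ : SL(2, ℤ)) * (optData h hqN).α (none : Option (ZMod q)) := by
      show (1 : GL (Fin 2) ℝ) * _ = _ * (1 : GL (Fin 2) ℝ)
      rw [one_mul, mul_one]
    rw [← ((optData h hqN).eq_of_spec h1).2]
  have e2 : ∀ j : ZMod q, φ (Additive.ofMul ((optData h hqN).coc γ (some j : Option (ZMod q)))) =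
      (wData h).hom A φ (Additive.ofMul ((dataU q (Nat.dvd_mul_left q N)).coc γ j)) := by
    intro j
    obtain ⟨δ', hδ'⟩ := exists_w h ((dataU q (Nat.dvd_mul_left q N)).coc γ j)
    rw [wData_hom_apply h φ hδ']
    have hs := (dataU q (Nat.dvd_mul_left q N)).spec γ j
    have h1 : (optData h hqN).α (some j : Option (ZMod q)) * mapGL ℝ (γ : SL(2, ℤ)) =
        mapGL ℝ (δ' : SL(2, ℤ)) * (optData h hqN).α
          (some ((dataU q (Nat.dvd_mul_left q N)).actFun γ j) : Option (ZMod q)) := by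
      show mapGL ℝ (delta h j) * _ = _ * mapGL ℝ (delta h _)
      have h2 : sc q (NeZero.ne q) * (mapGL ℝ (delta h j) * mapGL ℝ (γ : SL(2, ℤ))) =
          sc q (NeZero.ne q) * (mapGL ℝ (δ' : SL(2, ℤ)) *
            mapGL ℝ (delta h ((dataU q (Nat.dvd_mul_left q N)).actFun γ j))) := by
        rw [← mul_assoc, ← gl_mul_uRep, mul_assoc]
        refine (congrArg (fun g => h.gl * g) hs).trans ?_
        rw [← mul_assoc, hδ', mul_assoc]
        refine (congrArg (fun g => mapGL ℝ (δ' : SL(2, ℤ)) * g) (gl_mul_uRep h _)).trans ?_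
        rw [← mul_assoc, ← mul_assoc, sc_comm]
      exact mul_left_cancel h2
    rw [← ((optData h hqN).eq_of_spec h1).2]
  refine (Fintype.sum_option _).trans ?_
  rw [e1]
  exact congrArg _ (Finset.sum_congr rfl fun j _ => e2 j)

theorem pullPush_eq_optData (hq : q.Prime) (hqN : ¬ q ∣ N) {A : Type*} [AddCommGroup A] :
    (restr (alphaPush N q) (Gamma0_mul_le N q)).hom A = (optData h hqN).hom A := by
  symm
  refine hdata_hom_eq _ _ (fun x => ?_) ?_ A
  · have key : ∀ δ : Gamma0 N, ∃ (y : Cos N q) (t : Gamma0 (N * q)),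
        mapGL ℝ (δ : SL(2, ℤ)) = mapGL ℝ (t : SL(2, ℤ)) *
          ((1 : GL (Fin 2) ℝ) * mapGL ℝ ((rep (Gamma0 (N * q)) y : Gamma0 N) : SL(2, ℤ))) := by
      intro δ
      refine ⟨((δ⁻¹ : Gamma0 N) : Cos N q), ?_⟩
      have h1 : (((rep (Gamma0 (N * q)) ((δ⁻¹ : Gamma0 N) : Cos N q))⁻¹ : Gamma0 N) : Cos N q) =
          ((δ⁻¹ : Gamma0 N) : Cos N q) := mk_rep_inv _ _
      rw [QuotientGroup.eq, inv_inv, Subgroup.mem_subgroupOf] at h1
      refine ⟨⟨_, h1⟩⁻¹, ?_⟩
      rw [one_mul, ← map_mul]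
      congr 1
      rw [Subgroup.coe_inv]
      simp
    rcases x with _ | j
    · obtain ⟨y, t, ht⟩ := key 1
      refine ⟨y, t, ?_⟩
      rw [Subgroup.coe_one, map_one] at ht
      exact ht
    · have h1 : delta h j ∈ Gamma0 N := by
        rw [mem_Gamma0_iff, delta_10]
      exact key ⟨_, h1⟩
  · have h1 : Fintype.card (restr (alphaPush N q) (Gamma0_mul_le N q)).X =
        Fintype.card (Cos N q) := Fintype.card_congr (Equiv.refl _)
    have h2 : Fintype.card (optData h hqN).X = q + 1 := by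
      rw [← Nat.card_eq_fintype_card]
      show Nat.card (Option (ZMod q)) = q + 1
      rw [Nat.card_eq_fintype_card, Fintype.card_option, ZMod.card]
    rw [h1, h2, card_cos hq hqN]

/-- `α^* α_* = 1 + U_q ∘ w_q` on homomorphisms -/
theorem alphaPull_alphaPush_eq (hq : q.Prime) (hqN : ¬ q ∣ N) {A : Type*} [AddCommGroup A]
    (φ : Additive (Gamma0 (N * q)) →+ A) :
    (alphaPull N q).hom A ((alphaPush N q).hom A φ) =
      φ + (dataU q (Nat.dvd_mul_left q N)).hom A ((wData h).hom A φ) := by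
  rw [alphaPull_alphaPush, pullPush_eq_optData h hq hqN, optData_hom]

/-- `U_q = - w_q` on the kernel of `α_* w_q` -/
theorem dataU_of_push_eq_zero (hq : q.Prime) (hqN : ¬ q ∣ N) {A : Type*} [AddCommGroup A]
    (φ : Additive (Gamma0 (N * q)) →+ A)
    (hφ : (alphaPush N q).hom A ((wData h).hom A φ) = 0) :
    (dataU q (Nat.dvd_mul_left q N)).hom A φ = - (wData h).hom A φ := by
  have h1 := alphaPull_alphaPush_eq h hq hqN ((wData h).hom A φ)
  rw [hφ, map_zero, wData_wData] at h1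
  rw [eq_neg_iff_add_eq_zero, add_comm]
  exact h1.symm

end Trace

end Fermat.Agent.ZNewV
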