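import Fermat.Agent.ZAL.WHecke
import Fermat.Agent.Degen.Pic

/-!
# The Atkin-Lehner operator on homomorphisms and on torsion classes
-/

set_option autoImplicit false
set_option linter.unusedSectionVars false
set_option linter.style.haveILetI false
set_option maxHeartbeats 1000000

noncomputable section

open UpperHalfPlane Function ModularCurve Filter ModularForm AlgebraicCurve WithZero
  CongruenceSubgroup
open scoped Manifold MatrixGroups Topology ModularForm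

namespace Fermat.Agent.ZNewV

open Fermat.Agent.X0Places Fermat.Agent.FunField Fermat.Agent.FunField.PlaceLemmas
open Fermat.Agent.TorsCmp Fermat.Agent.HeckeRed Fermat.Agent.ZAL
open Matrix.SpecialLinearGroup (mapGL)
open Fermat.Agent.HeckeHom (HData dataU uRep uRep_val uRep_uniq)

/-! ### matrices -/

/-- scalar matrices -/
def sc (d : ℕ) (hd : d ≠ 0) : GL (Fin 2) ℝ := glZ !![(d : ℤ), 0; 0, (d : ℤ)] (by
  rw [Matrix.det_fin_two_of]
  have : 0 < d := Nat.pos_of_ne_zero hd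
  have h1 : (0 : ℤ) < d := by exact_mod_cast this
  nlinarith)

theorem sc_val (d : ℕ) (hd : d ≠ 0) :
    (sc d hd : Matrix (Fin 2) (Fin 2) ℝ) = !![(d : ℝ), 0; 0, (d : ℝ)] := by
  ext i j
  fin_cases i <;> fin_cases j <;> simp [sc, glZ_val]

theorem sc_comm (d : ℕ) (hd : d ≠ 0) (g : GL (Fin 2) ℝ) : sc d hd * g = g * sc d hd := by
  apply Units.ext
  rw [Units.val_mul, Units.val_mul, sc_val]
  ext i j
  fin_cases i <;> fin_cases j <;> simp [Matrix.mul_apply, Fin.sum_univ_two, mul_comm]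

theorem mkSL_of_det (A : Matrix (Fin 2) (Fin 2) ℤ) (hA : A.det = 1) :
    ∃ γ : SL(2, ℤ), (γ : Matrix (Fin 2) (Fin 2) ℤ) = A := ⟨⟨A, hA⟩, rfl⟩

section W

variable {d M : ℕ} [NeZero M] (h : ExDiv d M)

theorem gl_mul_mapGL {γ δ : SL(2, ℤ)} (hm : h.mat * (γ : Matrix (Fin 2) (Fin 2) ℤ) =
    (δ : Matrix (Fin 2) (Fin 2) ℤ) * h.mat) : h.gl * mapGL ℝ γ = mapGL ℝ δ * h.gl := by
  rw [mapGL_eq, mapGL_eq, ExDiv.gl, glZ_mul, glZ_mul]
  exact glZ_congr hm _ _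

/-- `w` normalises `Γ₀(M)`. -/
theorem exists_w (γ : Gamma0 M) : ∃ δ : Gamma0 M,
    h.gl * mapGL ℝ (γ : SL(2, ℤ)) = mapGL ℝ (δ : SL(2, ℤ)) * h.gl := by
  obtain ⟨b, e, m, hm, hbez, hmat⟩ : ∃ b e m : ℤ, (M : ℤ) = d * m ∧ d * e - m * b = 1 ∧
      h.mat = !![(d : ℤ), b; (M : ℤ), d * e] :=
    ⟨_, _, _, h.mul_div', h.exists_bez.choose_spec.choose_spec, rfl⟩
  have hγ := γ.2
  rw [mem_Gamma0_iff] at hγ
  obtain ⟨c, hc⟩ := hγ
  have hdet := Fermat.Agent.JInv.det_eq (γ : SL(2, ℤ))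
  set a := (γ : SL(2, ℤ)) 0 0 with ha
  set β := (γ : SL(2, ℤ)) 0 1 with hβ
  set δ := (γ : SL(2, ℤ)) 1 1 with hδ
  rw [hc] at hdet
  have hγm : ((γ : SL(2, ℤ)) : Matrix (Fin 2) (Fin 2) ℤ) = !![a, β; M * c, δ] := by
    ext i j
    fin_cases i <;> fin_cases j
    · rfl
    · rfl
    · exact hc
    · rfl
  have hdet2 : (!![(d * a + b * M * c) * e - (d * β + b * δ) * m,
      -b * a - b ^ 2 * m * c + d * β + b * δ;
      M * (e * a + d * e ^ 2 * c - m * β - e * δ),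
      -b * m * a - b * e * M * c + M * β + d * e * δ] : Matrix (Fin 2) (Fin 2) ℤ).det = 1 := by
    rw [Matrix.det_fin_two_of]
    rw [hm] at hdet ⊢
    have h1 : a * δ - β * (d * m * c) = 1 := by linear_combination hdet
    have h2 : (d * e - m * b) ^ 2 = 1 := by rw [hbez, one_pow]
    linear_combination (d * e - m * b) ^ 2 * h1 + h2
  obtain ⟨δ', hδ'⟩ := mkSL_of_det _ hdet2
  refine ⟨⟨δ', ?_⟩, gl_mul_mapGL h ?_⟩
  · rw [mem_Gamma0_iff]
    refine ⟨e * a + d * e ^ 2 * c - m * β - e * δ, ?_⟩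
    have := congrArg (fun A : Matrix (Fin 2) (Fin 2) ℤ => A 1 0) hδ'
    exact this
  · show h.mat * ((γ : SL(2, ℤ)) : Matrix (Fin 2) (Fin 2) ℤ) =
      (δ' : Matrix (Fin 2) (Fin 2) ℤ) * h.mat
    rw [hδ', hmat, hγm]
    ext i j
    fin_cases i <;> fin_cases j <;> simp [Matrix.mul_apply, Fin.sum_univ_two, hm]
    · linear_combination (-(d * a + b * d * m * c) : ℤ) * hbez
    · linear_combination (-(d * β + b * δ) : ℤ) * hbez
    · linear_combination (-(d * m * a + d * m * d * e * c) : ℤ) * hbez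
    · linear_combination (-(d * m * β + d * e * δ) : ℤ) * hbez

theorem sq_gl : ∃ ε : Gamma0 M, h.gl * h.gl = sc d h.ne_zero * mapGL ℝ (ε : SL(2, ℤ)) := by
  obtain ⟨b, e, m, hm, hbez, hmat⟩ : ∃ b e m : ℤ, (M : ℤ) = d * m ∧ d * e - m * b = 1 ∧
      h.mat = !![(d : ℤ), b; (M : ℤ), d * e] :=
    ⟨_, _, _, h.mul_div', h.exists_bez.choose_spec.choose_spec, rfl⟩
  have hdet2 : (!![d + b * m, b * (1 + e); M * (1 + e), m * b + d * e ^ 2] :
      Matrix (Fin 2) (Fin 2) ℤ).det = 1 := by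
    rw [Matrix.det_fin_two_of, hm]
    have h2 : (d * e - m * b) ^ 2 = 1 := by rw [hbez, one_pow]
    linear_combination h2
  obtain ⟨δ', hδ'⟩ := mkSL_of_det _ hdet2
  refine ⟨⟨δ', ?_⟩, ?_⟩
  · rw [mem_Gamma0_iff]
    refine ⟨1 + e, ?_⟩
    have := congrArg (fun A : Matrix (Fin 2) (Fin 2) ℤ => A 1 0) hδ'
    exact this
  · rw [mapGL_eq, ExDiv.gl, sc, glZ_mul, glZ_mul]
    refine glZ_congr ?_ _ _
    show h.mat * h.mat = _ * (δ' : Matrix (Fin 2) (Fin 2) ℤ)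
    rw [hδ', hmat]
    ext i j
    fin_cases i <;> fin_cases j <;> simp [Matrix.mul_apply, Fin.sum_univ_two, hm] <;> ring

/-- The reverse normalisation. -/
theorem exists_w' (δ : Gamma0 M) : ∃ γ : Gamma0 M,
    mapGL ℝ (δ : SL(2, ℤ)) * h.gl = h.gl * mapGL ℝ (γ : SL(2, ℤ)) := by
  obtain ⟨ε, hε⟩ := sq_gl h
  obtain ⟨δ', hδ'⟩ := exists_w h (ε⁻¹ * δ)
  refine ⟨δ' * ε, ?_⟩
  have h1 : sc d h.ne_zero * mapGL ℝ (δ : SL(2, ℤ)) = h.gl * mapGL ℝ (δ' : SL(2, ℤ)) * h.gl := by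
    rw [mul_assoc, ← hδ', ← mul_assoc, hε, mul_assoc, ← map_mul, ← Subgroup.coe_mul,
      mul_inv_cancel_left]
  have h2 : sc d h.ne_zero * (mapGL ℝ (δ : SL(2, ℤ)) * h.gl) =
      sc d h.ne_zero * (h.gl * mapGL ℝ ((δ' * ε : Gamma0 M) : SL(2, ℤ))) := by
    rw [← mul_assoc, h1, mul_assoc _ h.gl h.gl, hε, ← mul_assoc, ← sc_comm, Subgroup.coe_mul,
      map_mul, mul_assoc, mul_assoc]
  exact mul_left_cancel h2

/-- **The Atkin-Lehner operator on homomorphisms** -/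
def wData : HData (Gamma0 M) (Gamma0 M) where
  X := Unit
  α _ := h.gl
  ex γ _ := ⟨(), exists_w h γ⟩
  uniq _ _ _ _ := rfl

instance uniqueWData : Unique (wData h).X := inferInstanceAs (Unique Unit)

theorem wData_hom_apply {A : Type*} [AddCommGroup A] (φ : Additive (Gamma0 M) →+ A)
    {γ δ : Gamma0 M} (hδ : h.gl * mapGL ℝ (γ : SL(2, ℤ)) = mapGL ℝ (δ : SL(2, ℤ)) * h.gl) :
    (wData h).hom A φ (Additive.ofMul γ) = φ (Additive.ofMul δ) := by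
  rw [HData.hom_apply]
  refine (Fintype.sum_unique _).trans ?_
  rw [← ((wData h).eq_of_spec (γ := γ) (x := default) (y := default) (δ := δ) hδ).2]

/-- `w² = 1` -/
theorem wData_wData {A : Type*} [AddCommGroup A] (φ : Additive (Gamma0 M) →+ A) :
    (wData h).hom A ((wData h).hom A φ) = φ := by
  refine AddMonoidHom.ext fun γ' => ?_
  obtain ⟨γ, rfl⟩ := Additive.ofMul.surjective γ'
  obtain ⟨δ, hδ⟩ := exists_w h γ
  obtain ⟨δ', hδ'⟩ := exists_w h δ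
  obtain ⟨ε, hε⟩ := sq_gl h
  rw [wData_hom_apply h _ hδ, wData_hom_apply h _ hδ']
  have h1 : sc d h.ne_zero * mapGL ℝ ((ε * γ : Gamma0 M) : SL(2, ℤ)) =
      sc d h.ne_zero * mapGL ℝ ((δ' * ε : Gamma0 M) : SL(2, ℤ)) := by
    rw [Subgroup.coe_mul, map_mul, ← mul_assoc, ← hε, mul_assoc, hδ, ← mul_assoc, hδ', mul_assoc,
      hε, Subgroup.coe_mul, map_mul, ← mul_assoc, ← mul_assoc, sc_comm]
  have h2 : ε * γ = δ' * ε := Subtype.ext (HeckeHom.mapGL_inj (mul_left_cancel h1))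
  have h3 : δ' = ε * γ * ε⁻¹ := by rw [h2, mul_inv_cancel_right]
  rw [h3, ofMul_mul, ofMul_mul, ofMul_inv, map_add, map_add, map_neg]
  abel

variable {L : Type*} [Field L] [Algebra ℚ L] [IsAlgClosed L] {ι : L →+* ℂ}

theorem isChar_w {n : ℕ} {D : Divisor L (FF L M)} {χ χ' : Gamma0 M →* ℂˣ}
    (hχ : IsChar ι M n D χ)
    (hχ' : MonoidHom.toAdditive χ' =
      (wData h).hom (Additive ℂˣ) (MonoidHom.toAdditive χ)) :
    IsChar ι M n (wS ι h • D) χ' := by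
  refine hχ.hdata (wData h) (fun _ => h.gl_pos)
    (DistribSMul.toAddMonoidHom (Divisor L (FF L M)) (wS ι h)) (wF ι h) ?_ ?_ ?_ hχ'
  · intro x hx
    rwa [map_ne_zero]
  · intro x _
    exact (Fermat.Agent.HeckeRed.divOf_smul (wS ι h) x).symm
  · intro x
    rw [toMer_wF]
    symm
    exact Fintype.prod_unique _

theorem isCharP_w {n : ℕ} {z : Pic0 L (FF L M)} {χ χ' : Gamma0 M →* ℂˣ}
    (hz : IsCharP ι M n z χ)
    (hχ' : MonoidHom.toAdditive χ' =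
      (wData h).hom (Additive ℂˣ) (MonoidHom.toAdditive χ)) :
    IsCharP ι M n (wS ι h • z) χ' := by
  obtain ⟨D, rfl, hχ⟩ := hz
  rw [SemilinearAut.pic0_smul_mk]
  exact ⟨_, rfl, isChar_w h hχ hχ'⟩

theorem exists_toAdditive {G : Type*} [Group G] (f : Additive G →+ Additive ℂˣ) :
    ∃ χ : G →* ℂˣ, MonoidHom.toAdditive χ = f :=
  ⟨MonoidHom.toAdditive.symm _, Equiv.apply_symm_apply _ _⟩

/-- **The comparison and `w_d`.** -/
theorem isCmp_w {n : ℕ} {z : Pic0 L (FF L M)} {φ : Additive (Gamma0 M) →+ ZMod n}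
    (hz : IsCmp ι M n z φ) : IsCmp ι M n (wS ι h • z) ((wData h).hom (ZMod n) φ) := by
  obtain ⟨χ, hχ, hφ⟩ := hz
  obtain ⟨χ', hχ'⟩ := exists_toAdditive
    ((wData h).hom (Additive ℂˣ) (MonoidHom.toAdditive χ))
  refine ⟨χ', isCharP_w h hχ hχ', ?_⟩
  rw [hχ', ← hφ, HData.hom_comp]

end W

/-! ### degeneracy maps -/

section Degen

variable (N ℓ : ℕ) [NeZero N] [NeZero ℓ]
variable {L : Type*} [Field L] [Algebra ℚ L] [IsAlgClosed L] {ι : L →+* ℂ}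

theorem isCmp_alphaPush {n : ℕ} {z : Pic0 L (FF L (N * ℓ))}
    {φ : Additive (Gamma0 (N * ℓ)) →+ ZMod n} (hz : IsCmp ι (N * ℓ) n z φ) :
    IsCmp ι N n (Degen.pushPic (heckeAlphaBar L N ℓ) z) ((alphaPush N ℓ).hom (ZMod n) φ) := by
  obtain ⟨χ, ⟨D, rfl, hD⟩, hφ⟩ := hz
  obtain ⟨χ', hχ'⟩ := exists_toAdditive
    ((alphaPush N ℓ).hom (Additive ℂˣ) (MonoidHom.toAdditive χ))
  refine ⟨χ', ⟨Degen.pushZ (heckeAlphaBar L N ℓ) D, ?_, ?_⟩, ?_⟩
  · rfl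
  · exact hD.alphaPush N ℓ hχ'
  · rw [hχ', ← hφ, HData.hom_comp]

theorem isCmp_alphaPull {n : ℕ} {z : Pic0 L (FF L N)}
    {φ : Additive (Gamma0 N) →+ ZMod n} (hz : IsCmp ι N n z φ) :
    IsCmp ι (N * ℓ) n (Degen.pullPic (heckeAlphaBar L N ℓ) z)
      ((alphaPull N ℓ).hom (ZMod n) φ) := by
  obtain ⟨χ, ⟨D, rfl, hD⟩, hφ⟩ := hz
  obtain ⟨χ', hχ'⟩ := exists_toAdditive
    ((alphaPull N ℓ).hom (Additive ℂˣ) (MonoidHom.toAdditive χ))
  refine ⟨χ', ⟨Degen.pullZ (heckeAlphaBar L N ℓ) D, ?_, ?_⟩, ?_⟩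
  · rfl
  · exact hD.alphaPull N ℓ hχ'
  · rw [hχ', ← hφ, HData.hom_comp]

theorem isCmp_betaPull {n : ℕ} {z : Pic0 L (FF L N)}
    {φ : Additive (Gamma0 N) →+ ZMod n} (hz : IsCmp ι N n z φ) :
    IsCmp ι (N * ℓ) n (Degen.pullPic (heckeBetaBar L N ℓ) z)
      ((betaPull N ℓ).hom (ZMod n) φ) := by
  obtain ⟨χ, ⟨D, rfl, hD⟩, hφ⟩ := hz
  obtain ⟨χ', hχ'⟩ := exists_toAdditive
    ((betaPull N ℓ).hom (Additive ℂˣ) (MonoidHom.toAdditive χ))
  refine ⟨χ', ⟨Degen.pullZ (heckeBetaBar L N ℓ) D, ?_, ?_⟩, ?_⟩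
  · rfl
  · exact hD.betaPull N ℓ hχ'
  · rw [hχ', ← hφ, HData.hom_comp]

end Degen

end Fermat.Agent.ZNewV
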